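import Mathlib
import Fermat.Agent.LT.T7.H341.UpInertSpec

/-!
# Row LT, tower T7, node UD.1 `UpInertC341` (cut of helper341): leaf UI.2 `InertTorC341`
# -- helper276, OFF-MAIN

VERBATIM vs `LT/T7/H341/UpInertSpec.lean` (sha256 936ba8f6, helper341), unconditional:

* `inertTorC276 : UD341.InertTorC341`.

Proof.  `i : k → k'` with `v'(i x) = v(x)^e`, `e > 0`, is a topological embedding
(`isInducing_of_val_pow276`), so is `GL₂(i)` (`Topology.IsInducing.matrix_map`,
`Topology.IsInducing.units_map`).  By `T6.TwCentC` it maps the centraliser `T` of `γ` ONTO the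
twisted centraliser `T'` of `δ`: an isomorphism of topological groups `T ≃ T'`, in particular a
measurable equivalence; `μt'` = the image of `μt` (`MulEquiv.isHaarMeasure_map`,
`MeasurableEquiv.map_apply`: no measurability hypothesis on the sets is needed).
-/

set_option autoImplicit false
set_option linter.style.haveILetI false

open MeasureTheory MonoidWithZeroHom MonoidWithZeroHom.ValueGroup₀

noncomputable section

namespace Fermat.Agent.LT.T7.H276

open Fermat.Agent.LT Fermat.Agent.LT.T7 Fermat.Agent.LT.T7.H305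

/-- A ring homomorphism of valued fields with `v'(i x) = v(x)^e`, `e > 0`, induces the
topology. -/
theorem isInducing_of_val_pow276 {k k' : Type} [Field k] [Field k'] [Valued k T6.Γ₀]
    [Valued k' T6.Γ₀] (e : ℕ) (i : k →+* k') (he : 0 < e)
    (hv : ∀ x : k, Valued.v (i x) = Valued.v x ^ e) : Topology.IsInducing i := by
  rw [Topology.isInducing_iff_nhds]
  intro x
  ext s
  rw [Valued.mem_nhds, Filter.mem_comap]
  constructor
  · rintro ⟨γ, hγ⟩
    obtain ⟨c, hc⟩ := ValueGroup₀.restrict₀_surjective
      (.ofClass (Valued.v : Valuation k T6.Γ₀)) γ.1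
    have hc' : (Valued.v : Valuation k T6.Γ₀).restrict c = γ.1 := hc
    have hcne : (Valued.v : Valuation k T6.Γ₀) c ≠ 0 := by
      intro h0
      have : (Valued.v : Valuation k T6.Γ₀).restrict c = 0 :=
        (Valuation.restrict_eq_zero_iff _).2 h0
      rw [hc'] at this
      exact γ.ne_zero this
    have hne' : (Valued.v : Valuation k' T6.Γ₀).restrict (i c) ≠ 0 := by
      intro h0
      have h1 : (Valued.v : Valuation k' T6.Γ₀) (i c) = 0 :=
        (Valuation.restrict_eq_zero_iff _).1 h0
      rw [hv] at h1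
      exact hcne (eq_zero_of_pow_eq_zero h1)
    refine ⟨{y' | (Valued.v : Valuation k' T6.Γ₀).restrict (y' - i x)
        < (Valued.v : Valuation k' T6.Γ₀).restrict (i c)},
      Valued.mem_nhds.2 ⟨Units.mk0 _ hne', fun y hy => hy⟩, ?_⟩
    intro y hy
    apply hγ
    have h1 : (Valued.v : Valuation k' T6.Γ₀) (i y - i x)
        < (Valued.v : Valuation k' T6.Γ₀) (i c) := (Valuation.restrict_lt_iff _).1 hy
    rw [← map_sub, hv, hv] at h1
    have h2 : (Valued.v : Valuation k T6.Γ₀) (y - x) < (Valued.v : Valuation k T6.Γ₀) c :=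
      (pow_lt_pow_iff_left₀ zero_le zero_le he.ne').1 h1
    show (Valued.v : Valuation k T6.Γ₀).restrict (y - x) < γ.1
    rw [← hc']
    exact (Valuation.restrict_lt_iff _).2 h2
  · rintro ⟨t, ht, hts⟩
    obtain ⟨γ', hγ'⟩ := Valued.mem_nhds.1 ht
    have hg' : (ValueGroup₀.embedding γ'.1 : T6.Γ₀) ≠ 0 := by
      intro h
      have h2 : (ValueGroup₀.embedding γ'.1 : T6.Γ₀)
          = ValueGroup₀.embedding
            (0 : ValueGroup₀ (.ofClass (Valued.v : Valuation k' T6.Γ₀))) := by
        rw [h, map_zero]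
      exact γ'.ne_zero (embedding_injective h2)
    by_cases hx0 : ∃ x0 : k, Valued.v x0 ≠ 0 ∧ Valued.v x0 < (1 : T6.Γ₀)
    · obtain ⟨x0, h0, h1⟩ := hx0
      obtain ⟨N, hN⟩ := exists_pow_lt₀ h1 (Units.mk0 _ hg')
      rw [Units.val_mk0] at hN
      have hne : (Valued.v : Valuation k T6.Γ₀).restrict (x0 ^ N) ≠ 0 := by
        intro h
        have h3 : (Valued.v : Valuation k T6.Γ₀) (x0 ^ N) = 0 :=
          (Valuation.restrict_eq_zero_iff _).1 h
        rw [map_pow] at h3
        exact h0 (eq_zero_of_pow_eq_zero h3)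
      refine ⟨Units.mk0 _ hne, fun y hy => hts (hγ' ?_)⟩
      have hy' : Valued.v (y - x) < (Valued.v x0 : T6.Γ₀) ^ N := by
        have := (Valuation.restrict_lt_iff _).1 hy
        rwa [map_pow] at this
      have hle1 : (Valued.v x0 : T6.Γ₀) ^ N ≤ 1 := pow_le_one₀ zero_le h1.le
      show (Valued.v : Valuation k' T6.Γ₀).restrict (i y - i x) < γ'.1
      rw [Valuation.restrict_lt_iff_lt_embedding, ← map_sub, hv]
      calc (Valued.v (y - x) : T6.Γ₀) ^ e ≤ Valued.v (y - x) :=
            pow_le_of_le_one zero_le (hy'.le.trans hle1) he.ne'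
        _ < (Valued.v x0 : T6.Γ₀) ^ N := hy'
        _ < _ := hN
    · have hx0' : ∀ x0 : k, Valued.v x0 ≠ 0 → (1 : T6.Γ₀) ≤ Valued.v x0 := fun x0 h =>
        not_lt.1 fun hlt => hx0 ⟨x0, h, hlt⟩
      refine ⟨1, fun y hy => hts (hγ' ?_)⟩
      have hy' : Valued.v (y - x) < (1 : T6.Γ₀) := by
        have := (Valuation.restrict_lt_iff_lt_embedding _).1 hy
        simpa using this
      have hz : (Valued.v (y - x) : T6.Γ₀) = 0 := by
        by_contra h
        exact absurd hy' (not_lt.2 (hx0' _ h))
      show (Valued.v : Valuation k' T6.Γ₀).restrict (i y - i x) < γ'.1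
      rw [Valuation.restrict_lt_iff_lt_embedding, ← map_sub, hv, hz, zero_pow he.ne']
      exact zero_lt_iff.2 hg'

/-- `GL₂(i)` induces the topology. -/
theorem isInducing_glMap276 {k k' : Type} [Field k] [Field k'] [TopologicalSpace k]
    [TopologicalSpace k'] (i : k →+* k') (hi : Topology.IsInducing i) :
    Topology.IsInducing (Matrix.GeneralLinearGroup.map (n := Fin 2) i) := by
  have hm : Topology.IsInducing
      ((RingHom.mapMatrix i : Matrix (Fin 2) (Fin 2) k →+* Matrix (Fin 2) (Fin 2) k').toMonoidHom) :=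
    Topology.IsInducing.matrix_map hi
  exact Topology.IsInducing.units_map hm

theorem glMap_injective276 {k k' : Type} [Field k] [Field k'] (i : k →+* k') :
    Function.Injective (Matrix.GeneralLinearGroup.map (n := Fin 2) i) := by
  intro a b hab
  apply Units.ext
  ext p q
  have h := congrArg (fun g : GL (Fin 2) k' => (g : Matrix (Fin 2) (Fin 2) k') p q) hab
  simp only [Matrix.GeneralLinearGroup.map_apply] at h
  exact i.injective h

/-- **LEAF UI.2 `InertTorC341`**, VERBATIM. -/
theorem inertTorC276 : Fermat.Agent.LT.T7.UD341.InertTorC341 := by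
  intro hTC k k' _ _ _ _ l e i s hext δ γ hγ hN μt hμt
  classical
  set f : GL (Fin 2) k →* GL (Fin 2) k' := Matrix.GeneralLinearGroup.map i with hf
  have hfind : Topology.IsInducing f :=
    isInducing_glMap276 i (isInducing_of_val_pow276 e i hext.e_pos hext.val_i)
  have hfinj : Function.Injective f := glMap_injective276 i
  have hchar := hTC k k' l i s hext.cyc δ γ hγ hN
  -- membership in the centraliser downstairs
  have hT : ∀ t : GL (Fin 2) k,
      t ∈ T6.twCentSub (T6.glAut (RingEquiv.refl k)) γ ↔ t * γ = γ * t := by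
    intro t
    have h1 : T6.glAut (RingEquiv.refl k) t = t := by
      apply Units.ext
      ext p q
      simp [T6.glAut]
    show t⁻¹ * γ * T6.glAut (RingEquiv.refl k) t = γ ↔ _
    rw [h1]
    constructor
    · intro h
      calc t * γ = t * (t⁻¹ * γ * t) := by rw [h]
        _ = γ * t := by group
    · intro h
      calc t⁻¹ * γ * t = t⁻¹ * (γ * t) := by group
        _ = t⁻¹ * (t * γ) := by rw [h]
        _ = γ := by group
  have hmaps : ∀ t : T6.twCentSub (T6.glAut (RingEquiv.refl k)) γ,
      f (t : GL (Fin 2) k) ∈ T6.twCentSub (T6.glAut s) δ := by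
    intro t
    exact (hchar _).2 ⟨t, (hT _).1 t.2, rfl⟩
  -- the isomorphism
  let g : T6.twCentSub (T6.glAut (RingEquiv.refl k)) γ →* T6.twCentSub (T6.glAut s) δ :=
    (f.comp (Subgroup.subtype _)).codRestrict _ hmaps
  have hgval : ∀ t, ((g t : T6.twCentSub (T6.glAut s) δ) : GL (Fin 2) k') = f t := fun _ => rfl
  have hgbij : Function.Bijective g := by
    constructor
    · intro a b hab
      have h := congrArg (fun u : T6.twCentSub (T6.glAut s) δ => (u : GL (Fin 2) k')) hab
      exact Subtype.ext (hfinj h)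
    · intro x
      obtain ⟨t, ht, hx⟩ := (hchar x).1 x.2
      exact ⟨⟨t, (hT t).2 ht⟩, Subtype.ext hx.symm⟩
  let ge : T6.twCentSub (T6.glAut (RingEquiv.refl k)) γ ≃* T6.twCentSub (T6.glAut s) δ :=
    MulEquiv.ofBijective g hgbij
  have hgc : Continuous g :=
    (hfind.continuous.comp continuous_subtype_val).subtype_mk _
  have hgind : Topology.IsInducing g := by
    refine Topology.IsInducing.of_comp hgc continuous_subtype_val ?_
    exact hfind.comp Topology.IsInducing.subtypeVal
  have hgec : Continuous ge := hgc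
  have hges : Continuous ge.symm := by
    rw [hgind.continuous_iff]
    have : (g ∘ ge.symm) = _root_.id := by
      funext x
      exact ge.apply_symm_apply x
    rw [this]
    exact continuous_id
  -- measurable structures
  letI : MeasurableSpace (T6.twCentSub (T6.glAut (RingEquiv.refl k)) γ) := borel _
  haveI : BorelSpace (T6.twCentSub (T6.glAut (RingEquiv.refl k)) γ) := ⟨rfl⟩
  letI : MeasurableSpace (T6.twCentSub (T6.glAut s) δ) := borel _
  haveI : BorelSpace (T6.twCentSub (T6.glAut s) δ) := ⟨rfl⟩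
  obtain ⟨hhaar, hnorm⟩ := hμt
  haveI : μt.IsHaarMeasure := hhaar
  let hom : T6.twCentSub (T6.glAut (RingEquiv.refl k)) γ ≃ₜ T6.twCentSub (T6.glAut s) δ :=
    { ge.toEquiv with continuous_toFun := hgec, continuous_invFun := hges }
  let me := hom.toMeasurableEquiv
  have hme : ∀ t, me t = g t := fun _ => rfl
  have hmap : ∀ A : Set (T6.twCentSub (T6.glAut s) δ),
      (Measure.map g μt) A = μt (g ⁻¹' A) := by
    intro A
    exact MeasurableEquiv.map_apply me A
  refine ⟨Measure.map g μt, ⟨?_, ?_⟩, ?_⟩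
  · exact MulEquiv.isHaarMeasure_map μt ge hgec hges
  · rw [hmap]
    rw [← hnorm]
    congr 1
    ext t
    simp only [Set.mem_preimage, Set.mem_ofPred_eq]
    have htr : ((f (t : GL (Fin 2) k) : GL (Fin 2) k') : Matrix (Fin 2) (Fin 2) k').trace
        = i ((t : GL (Fin 2) k) : Matrix (Fin 2) (Fin 2) k).trace := by
      rw [Matrix.trace_fin_two, Matrix.trace_fin_two, hf]
      simp only [Matrix.GeneralLinearGroup.map_apply, map_add]
    have hdet : ((f (t : GL (Fin 2) k) : GL (Fin 2) k') : Matrix (Fin 2) (Fin 2) k').det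
        = i ((t : GL (Fin 2) k) : Matrix (Fin 2) (Fin 2) k).det := by
      rw [Matrix.det_fin_two, Matrix.det_fin_two, hf]
      simp only [Matrix.GeneralLinearGroup.map_apply, map_sub, map_mul]
    rw [hgval, htr, hdet, hext.val_i, hext.val_i,
      pow_le_one_iff_of_nonneg zero_le hext.e_pos.ne',
      pow_eq_one_iff_of_nonneg zero_le hext.e_pos.ne']
  · intro A _
    rw [hmap]
    rfl

end Fermat.Agent.LT.T7.H276

end
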