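import Fermat.Agent.LT.H129.HeckeExists
import Fermat.Agent.LT.T5.Spec

/-!
# Row LT, tower T7, node T7.L2.2.B4 `OpsC561` (helper276, OFF-MAIN): local matrix algebra

Mathlib + the assets of helper129 (`locFin129`, `rep129`) + `T5/Spec` (`InIwahori`).

* `iw_inv_mul276` : `!![a,1;1,0]⁻¹ !![a',1;1,0] = !![1,0;a'-a,1]`;
* `iw_mul_omega276` : `!![a,1;1,0] !![0,1;c,0] = !![c,a;0,1]`;
* `omega_sq276` : `!![0,1;c,0]² = diag(c, c)`;
* `iw_conj276` : `(h ω)⁻¹ (h' ω) = !![1,(a'-a)/c;0,1]`;
* `iwRep276`, `iwOmega276` : the explicit elements of `GL₂(𝔸_K)`.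
-/

set_option autoImplicit false

open IsDedekindDomain NumberField IsDedekindDomain.HeightOneSpectrum
open Fermat.Agent.LT.H556.A0 Fermat.Agent.LT.H129

noncomputable section

namespace Fermat.Agent.LT.T7.H276

section Generic

variable {F : Type*} [Field F]

theorem iw_inv_mul276 (g g' : GL (Fin 2) F) (a a' : F)
    (hg : (g : Matrix (Fin 2) (Fin 2) F) = !![a, 1; 1, 0])
    (hg' : (g' : Matrix (Fin 2) (Fin 2) F) = !![a', 1; 1, 0]) :
    ((g⁻¹ * g' : GL (Fin 2) F) : Matrix (Fin 2) (Fin 2) F) = !![1, 0; a' - a, 1] := by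
  ext i j
  rw [inv_mul_apply129, hg, hg']
  fin_cases i <;> fin_cases j <;>
    simp [Matrix.adjugate_fin_two_of, Matrix.det_fin_two_of, Matrix.mul_apply,
      Fin.sum_univ_two]
  ring

theorem iw_mul_omega276 (a c : F) :
    (!![a, 1; 1, 0] : Matrix (Fin 2) (Fin 2) F) * !![0, 1; c, 0] = !![c, a; 0, 1] := by
  ext i j
  fin_cases i <;> fin_cases j <;> simp [Matrix.mul_apply, Fin.sum_univ_two]

theorem omega_sq276 (c : F) :
    (!![0, 1; c, 0] : Matrix (Fin 2) (Fin 2) F) * !![0, 1; c, 0]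
      = Matrix.diagonal (fun _ => c) := by
  ext i j
  fin_cases i <;> fin_cases j <;> simp [Matrix.mul_apply, Fin.sum_univ_two]

theorem iw_split276 (a c : F) :
    (!![c, a; 0, 1] : Matrix (Fin 2) (Fin 2) F) = !![1, a; 0, 1] * !![c, 0; 0, 1] := by
  ext i j
  fin_cases i <;> fin_cases j <;> simp [Matrix.mul_apply, Fin.sum_univ_two]

theorem iw_conj276 (g g' : GL (Fin 2) F) (a a' c : F)
    (hg : (g : Matrix (Fin 2) (Fin 2) F) = !![c, a; 0, 1])
    (hg' : (g' : Matrix (Fin 2) (Fin 2) F) = !![c, a'; 0, 1]) :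
    ((g⁻¹ * g' : GL (Fin 2) F) : Matrix (Fin 2) (Fin 2) F) 0 1 = (a' - a) / c := by
  rw [inv_mul_apply129, hg, hg']
  simp [Matrix.adjugate_fin_two_of, Matrix.det_fin_two_of, Matrix.mul_apply,
      Fin.sum_univ_two]
  ring

end Generic

variable {K : Type} [Field K] [NumberField K] (v : HeightOneSpectrum (𝓞 K))

/-- The element supported at `v` with component `!![a, 1; 1, 0]`, `a` the representative of the
residue class `c`. -/
def iwRep276 (c : 𝓞 K ⧸ v.asIdeal) : G K :=
  locFin129 v (mkGL129 (rep129 v c) 1 1 0 (by simp))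

/-- The element supported at `v` with component `!![0, 1; π, 0]`. -/
def iwOmega276 (π : v.adicCompletion K) (hπ : π ≠ 0) : G K :=
  locFin129 v (mkGL129 0 1 π 0 (by simpa using hπ))

theorem finComp_iwRep276 (c : 𝓞 K ⧸ v.asIdeal) :
    finComp v (iwRep276 v c) = !![rep129 v c, 1; 1, 0] := by
  rw [iwRep276, finComp_locFin129, coe_mkGL129]

theorem finComp_iwOmega276 (π : v.adicCompletion K) (hπ : π ≠ 0) :
    finComp v (iwOmega276 v π hπ) = !![0, 1; π, 0] := by
  rw [iwOmega276, finComp_locFin129, coe_mkGL129]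

/-- The component of `h⁻¹ h'` at `v`. -/
theorem finComp_inv_mul276 (h h' : G K) :
    finComp v (h⁻¹ * h')
      = (((finCompHom129 v h)⁻¹ * finCompHom129 v h' : GL (Fin 2) (v.adicCompletion K)) :
          Matrix (Fin 2) (Fin 2) (v.adicCompletion K)) := by
  rw [← coe_finCompHom129, map_mul, map_inv]

/-- The component of a product at `v`. -/
theorem finComp_mul276 (h h' : G K) :
    finComp v (h * h') = finComp v h * finComp v h' := by
  rw [← coe_finCompHom129, map_mul, Matrix.GeneralLinearGroup.coe_mul, coe_finCompHom129,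
    coe_finCompHom129]

/-- `h⁻¹ h'` is not in the Iwahori subgroup if the residues differ. -/
theorem not_inIwahori_of_val276 {h h' : G K} {a a' : v.adicCompletion K}
    (hh : finComp v h = !![a, 1; 1, 0]) (hh' : finComp v h' = !![a', 1; 1, 0])
    (hv : Valued.v (a' - a) = 1) : ¬ T5.InIwahori v (h⁻¹ * h') := by
  intro hI
  have h3 := hI.2.2
  rw [finComp_inv_mul276, iw_inv_mul276 _ _ a a' hh hh'] at h3
  simp only [Matrix.of_apply, Matrix.cons_val', Matrix.cons_val_one, Matrix.cons_val_zero,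
    Matrix.cons_val_fin_one] at h3
  rw [hv] at h3
  exact lt_irrefl _ h3

/-- Conversely: if `h⁻¹ h'` is not in the Iwahori subgroup (`a`, `a'` integral), the residues
differ. -/
theorem val_of_not_inIwahori276 {h h' : G K} {a a' : v.adicCompletion K}
    (ha : a ∈ v.adicCompletionIntegers K) (ha' : a' ∈ v.adicCompletionIntegers K)
    (hh : finComp v h = !![a, 1; 1, 0]) (hh' : finComp v h' = !![a', 1; 1, 0])
    (hI : ¬ T5.InIwahori v (h⁻¹ * h')) : 1 ≤ Valued.v (a' - a) := by
  by_contra hlt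
  rw [not_le] at hlt
  apply hI
  have hsub : a' - a ∈ v.adicCompletionIntegers K :=
    (v.adicCompletionIntegers K).sub_mem ha' ha
  have hsub' : a - a' ∈ v.adicCompletionIntegers K :=
    (v.adicCompletionIntegers K).sub_mem ha ha'
  have h1 : (1 : v.adicCompletion K) ∈ v.adicCompletionIntegers K :=
    (v.adicCompletionIntegers K).one_mem
  have h0 : (0 : v.adicCompletion K) ∈ v.adicCompletionIntegers K :=
    (v.adicCompletionIntegers K).zero_mem
  have e1 : finComp v (h⁻¹ * h') = !![1, 0; a' - a, 1] := by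
    rw [finComp_inv_mul276, iw_inv_mul276 _ _ a a' hh hh']
  have e2 : finComp v (h⁻¹ * h')⁻¹ = !![1, 0; a - a', 1] := by
    have : (h⁻¹ * h')⁻¹ = h'⁻¹ * h := by group
    rw [this, finComp_inv_mul276, iw_inv_mul276 _ _ a' a hh' hh]
  refine ⟨?_, ?_, ?_⟩
  · intro i j
    rw [e1]
    fin_cases i <;> fin_cases j <;> simp <;> assumption
  · intro i j
    rw [e2]
    fin_cases i <;> fin_cases j <;> simp <;> assumption
  · rw [e1]
    simpa using hlt

/-! ## Appendix: the equation lemmas of the definitions are realised HERE -/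

theorem eqns_realisedIw276 : True := by
  have _a1 := @iwRep276.eq_1
  have _a2 := @iwRep276.eq_def
  have _a3 := @iwRep276.eq_unfold
  have _b1 := @iwOmega276.eq_1
  have _b2 := @iwOmega276.eq_def
  have _b3 := @iwOmega276.eq_unfold
  trivial

end Fermat.Agent.LT.T7.H276

end
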