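import Fermat.Agent.LT.T7.H561.OpsSpec
import Fermat.Agent.LT.T7.H276.IwCore

/-!
# Row LT, tower T7, leaf T7.L2.2.B4.1 `IwSysExistsC561` (helper276, OFF-MAIN)

    iwSysExistsC276 (K K') : H561.IwSysExistsC561 K K'     -- VERBATIM, UNCONDITIONAL

The explicit systems along the orbit exist: at every finite place `w`, `ω = !![0,1;ϖ,0]` for a
uniformiser `ϖ`, and `Hs = {!![a,1;1,0]}`, `a` running over the representatives `rep129` of the
residue field (assets of helper129: `locFin129`, `rep129`, `valued_rep129_sub`,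
`exists_unif129`).  The hypotheses on the data are not used.
-/

set_option autoImplicit false

open IsDedekindDomain NumberField IsDedekindDomain.HeightOneSpectrum
open Fermat.Agent.LT.H556.A0 Fermat.Agent.LT.H129

noncomputable section

namespace Fermat.Agent.LT.T7.H276

variable {K : Type} [Field K] [NumberField K] (v : HeightOneSpectrum (𝓞 K))

theorem finite_resField276 : Finite (𝓞 K ⧸ v.asIdeal) := by
  apply Nat.finite_of_card_ne_zero
  rw [← Submodule.cardQuot_apply, ← Ideal.absNorm_apply]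
  exact ne_of_gt (lt_trans Nat.zero_lt_one (NumberField.HeightOneSpectrum.one_lt_absNorm v))

theorem iwRep276_injective : Function.Injective (iwRep276 v) := by
  intro c c' h
  by_contra hne
  have h1 := valued_rep129_sub v hne
  have e1 := finComp_iwRep276 v c
  have e2 := finComp_iwRep276 v c'
  rw [h] at e1
  rw [e1] at e2
  have := congrFun (congrFun e2 0) 0
  simp only [Matrix.of_apply, Matrix.cons_val', Matrix.cons_val_zero,
    Matrix.cons_val_fin_one] at this
  rw [this, sub_self, map_zero] at h1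
  exact zero_ne_one h1

open Classical in
/-- **The explicit system at one place.** -/
theorem exists_iwSys_at276 :
    ∃ (H : Finset (G K)) (ω : G K),
      IsLocalAtFin v ω ∧
      (∃ c : v.adicCompletion K, Valued.v c = WithZero.exp (-1 : ℤ) ∧
        finComp v ω = !![0, 1; c, 0]) ∧
      H.card = Ideal.absNorm v.asIdeal ∧
      (∀ h ∈ H, IsLocalAtFin v h) ∧
      (∀ h ∈ H, ∃ a : v.adicCompletion K,
        a ∈ v.adicCompletionIntegers K ∧ finComp v h = !![a, 1; 1, 0]) ∧
      ∀ h ∈ H, ∀ h' ∈ H, h ≠ h' → ¬ T5.InIwahori v (h⁻¹ * h') := by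
  obtain ⟨π, hπ⟩ := exists_unif129 v
  haveI : Finite (𝓞 K ⧸ v.asIdeal) := finite_resField276 v
  letI : Fintype (𝓞 K ⧸ v.asIdeal) := Fintype.ofFinite _
  refine ⟨Finset.univ.image (iwRep276 v), iwOmega276 v π (unif_ne_zero129 v hπ),
    isLocalAtFin_locFin129 v _, ⟨π, hπ, finComp_iwOmega276 v π _⟩, ?_, ?_, ?_, ?_⟩
  · rw [Finset.card_image_of_injective _ (iwRep276_injective v), Finset.card_univ,
      Ideal.absNorm_apply, Submodule.cardQuot_apply, Nat.card_eq_fintype_card]
  · intro h hh
    obtain ⟨c, -, rfl⟩ := Finset.mem_image.mp hh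
    exact isLocalAtFin_locFin129 v _
  · intro h hh
    obtain ⟨c, -, rfl⟩ := Finset.mem_image.mp hh
    exact ⟨rep129 v c, rep129_mem v c, finComp_iwRep276 v c⟩
  · intro h hh h' hh' hne
    obtain ⟨c, -, rfl⟩ := Finset.mem_image.mp hh
    obtain ⟨c', -, rfl⟩ := Finset.mem_image.mp hh'
    have hcc : c ≠ c' := fun e => hne (by rw [e])
    exact not_inIwahori_of_val276 v (finComp_iwRep276 v c) (finComp_iwRep276 v c')
      (valued_rep129_sub v hcc)

variable (K)
variable (K' : Type) [Field K'] [NumberField K'] [Algebra K K']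

/-- **LEAF T7.L2.2.B4.1 = IW-SYS-EXISTS, VERBATIM.** -/
theorem iwSysExistsC276 : H561.IwSysExistsC561 K K' := by
  intro ℓ Φ Dt _
  choose H ω h1 h2 h3 h4 h5 h6 using fun w : HeightOneSpectrum (𝓞 K') => exists_iwSys_at276 w
  exact ⟨fun j => H (Dt.o j), fun j => ω (Dt.o j),
    { ω_local := fun j => h1 (Dt.o j)
      ω_comp := fun j => h2 (Dt.o j)
      Hs_card := fun j => h3 (Dt.o j)
      Hs_local := fun j => h4 (Dt.o j)
      Hs_comp := fun j => h5 (Dt.o j)
      Hs_inj := fun j => h6 (Dt.o j) }⟩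

end Fermat.Agent.LT.T7.H276

end
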