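import Fermat.Agent.LT.T7.H276.IwAlg

/-!
# Row LT, tower T7, node T7.L2.2.B4 `OpsC561` (helper276, OFF-MAIN): the quadratic relation of
# the Iwahori--Hecke operator at one place

`IsSys276 v H` : `H` is an explicit system at `v` (`q = N v` elements supported at `v` with
components `!![a,1;1,0]`, `a` integral, pairwise inequivalent modulo the Iwahori subgroup).

    quad_rel276 : IsSys276 v H → (ψ invariant under the local Iwahori elements at v) →
      ∑ h ∈ H, ∑ h' ∈ H, ψ (x * h * h') = (q - 1) * ∑ h ∈ H, ψ (x * h) + q * ψ x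

Proof.  The residues of the entries `a` run over the residue field `k` (injective, `#H = #k`;
`card_residueField129` of helper129).  `!![a,1;1,0] !![b,1;1,0] = !![ab+1,a;b,1]` is in `I` if
the residue of `b` is `0`, and in `!![c,1;1,0] I` with `c = a + b⁻¹` otherwise.
-/

set_option autoImplicit false

open IsDedekindDomain NumberField IsDedekindDomain.HeightOneSpectrum
open Fermat.Agent.LT.H556.A0 Fermat.Agent.LT.H129

noncomputable section

namespace Fermat.Agent.LT.T7.H276

variable {K : Type} [Field K] [NumberField K] (v : HeightOneSpectrum (𝓞 K))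

open Classical in
/-- The residue of an element of `K_v` (`0` if it is not integral). -/
def resK276 (a : v.adicCompletion K) :
    IsLocalRing.ResidueField (v.adicCompletionIntegers K) :=
  if ha : a ∈ v.adicCompletionIntegers K then
    IsLocalRing.residue (v.adicCompletionIntegers K) ⟨a, ha⟩
  else 0

theorem resK276_of_mem {a : v.adicCompletion K} (ha : a ∈ v.adicCompletionIntegers K) :
    resK276 v a = IsLocalRing.residue (v.adicCompletionIntegers K) ⟨a, ha⟩ := by
  rw [resK276, dif_pos ha]

theorem resK276_eq_zero_iff {a : v.adicCompletion K} (ha : a ∈ v.adicCompletionIntegers K) :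
    resK276 v a = 0 ↔ Valued.v a < 1 := by
  rw [resK276_of_mem v ha, residue_eq_zero_iff_valued129]

theorem resK276_add {a b : v.adicCompletion K} (ha : a ∈ v.adicCompletionIntegers K)
    (hb : b ∈ v.adicCompletionIntegers K) :
    resK276 v (a + b) = resK276 v a + resK276 v b := by
  rw [resK276_of_mem v ha, resK276_of_mem v hb,
    resK276_of_mem v ((v.adicCompletionIntegers K).add_mem _ _ ha hb), ← map_add]
  rfl

theorem resK276_sub {a b : v.adicCompletion K} (ha : a ∈ v.adicCompletionIntegers K)
    (hb : b ∈ v.adicCompletionIntegers K) :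
    resK276 v (a - b) = resK276 v a - resK276 v b := by
  rw [resK276_of_mem v ha, resK276_of_mem v hb,
    resK276_of_mem v ((v.adicCompletionIntegers K).sub_mem ha hb), ← map_sub]
  rfl

theorem resK276_mul {a b : v.adicCompletion K} (ha : a ∈ v.adicCompletionIntegers K)
    (hb : b ∈ v.adicCompletionIntegers K) :
    resK276 v (a * b) = resK276 v a * resK276 v b := by
  rw [resK276_of_mem v ha, resK276_of_mem v hb,
    resK276_of_mem v ((v.adicCompletionIntegers K).mul_mem _ _ ha hb), ← map_mul]
  rfl

theorem resK276_one : resK276 v (1 : v.adicCompletion K) = 1 := by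
  rw [resK276_of_mem v (v.adicCompletionIntegers K).one_mem, ← map_one
    (IsLocalRing.residue (v.adicCompletionIntegers K))]
  rfl

/-- An explicit system at `v`. -/
structure IsSys276 (H : Finset (G K)) : Prop where
  card : H.card = Ideal.absNorm v.asIdeal
  loc : ∀ h ∈ H, IsLocalAtFin v h
  comp : ∀ h ∈ H, ∃ a : v.adicCompletion K,
    a ∈ v.adicCompletionIntegers K ∧ finComp v h = !![a, 1; 1, 0]
  inj : ∀ h ∈ H, ∀ h' ∈ H, h ≠ h' → ¬ T5.InIwahori v (h⁻¹ * h')

/-- The upper left entry of the component at `v`. -/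
def ent276 (h : G K) : v.adicCompletion K := finComp v h 0 0

variable {v}

theorem IsSys276.ent_mem {H : Finset (G K)} (hH : IsSys276 v H) {h : G K} (hh : h ∈ H) :
    ent276 v h ∈ v.adicCompletionIntegers K := by
  obtain ⟨a, ha, e⟩ := hH.comp h hh
  have : ent276 v h = a := by rw [ent276, e]; rfl
  rw [this]; exact ha

theorem IsSys276.finComp_eq {H : Finset (G K)} (hH : IsSys276 v H) {h : G K} (hh : h ∈ H) :
    finComp v h = !![ent276 v h, 1; 1, 0] := by
  obtain ⟨a, ha, e⟩ := hH.comp h hh
  have : ent276 v h = a := by rw [ent276, e]; rfl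
  rw [this]; exact e

theorem IsSys276.res_injOn {H : Finset (G K)} (hH : IsSys276 v H) {h h' : G K} (hh : h ∈ H)
    (hh' : h' ∈ H) (e : resK276 v (ent276 v h) = resK276 v (ent276 v h')) : h = h' := by
  by_contra hne
  have h1 := val_of_not_inIwahori276 v (hH.ent_mem hh) (hH.ent_mem hh') (hH.finComp_eq hh)
    (hH.finComp_eq hh') (hH.inj h hh h' hh' hne)
  have h2 : resK276 v (ent276 v h' - ent276 v h) = 0 := by
    rw [resK276_sub v (hH.ent_mem hh') (hH.ent_mem hh), e, sub_self]
  rw [resK276_eq_zero_iff v ((v.adicCompletionIntegers K).sub_mem (hH.ent_mem hh')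
    (hH.ent_mem hh))] at h2
  exact absurd h1 (not_le.mpr h2)

theorem IsSys276.exists_res {H : Finset (G K)} (hH : IsSys276 v H)
    (c : IsLocalRing.ResidueField (v.adicCompletionIntegers K)) :
    ∃ h ∈ H, resK276 v (ent276 v h) = c := by
  classical
  have : Finite (IsLocalRing.ResidueField (v.adicCompletionIntegers K)) :=
    finite_residueField129 K v
  let _ : Fintype (IsLocalRing.ResidueField (v.adicCompletionIntegers K)) := Fintype.ofFinite _
  have hcard : (H.image (fun h => resK276 v (ent276 v h))).card
      = Fintype.card (IsLocalRing.ResidueField (v.adicCompletionIntegers K)) := by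
    rw [Finset.card_image_of_injOn, hH.card, ← card_residueField129 K v,
      Nat.card_eq_fintype_card]
    intro h hh h' hh' e
    exact hH.res_injOn hh hh' e
  have huniv := Finset.eq_univ_of_card _ hcard
  have hc : c ∈ H.image (fun h => resK276 v (ent276 v h)) := by
    rw [huniv]; exact Finset.mem_univ c
  obtain ⟨h, hh, e⟩ := Finset.mem_image.mp hc
  exact ⟨h, hh, e⟩

/-- **The quadratic relation** `S² = (q - 1) S + q` on the functions which are invariant under
the local Iwahori elements at `v`. -/
theorem quad_rel276 {H : Finset (G K)} (hH : IsSys276 v H) {ψ : G K → ℂ}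
    (hinv : ∀ u : G K, IsLocalAtFin v u → T5.InIwahori v u → ∀ x : G K, ψ (x * u) = ψ x)
    (x : G K) :
    ∑ h ∈ H, ∑ h' ∈ H, ψ (x * h * h')
      = (((Ideal.absNorm v.asIdeal : ℕ) : ℂ) - 1) * ∑ h ∈ H, ψ (x * h)
        + ((Ideal.absNorm v.asIdeal : ℕ) : ℂ) * ψ x := by
  classical
  have : Finite (IsLocalRing.ResidueField (v.adicCompletionIntegers K)) :=
    finite_residueField129 K v
  let _ : Fintype (IsLocalRing.ResidueField (v.adicCompletionIntegers K)) := Fintype.ofFinite _
  have hq : Fintype.card (IsLocalRing.ResidueField (v.adicCompletionIntegers K))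
      = Ideal.absNorm v.asIdeal := by
    rw [← card_residueField129 K v, Nat.card_eq_fintype_card]
  choose pick hpickH hpick using hH.exists_res
  have hpick_res : ∀ h ∈ H, pick (resK276 v (ent276 v h)) = h := fun h hh =>
    hH.res_injOn (hpickH _) hh (hpick _)
  -- sums over `H` are sums over the residue field
  have hsum : ∀ f : G K → ℂ, ∑ h ∈ H, f h = ∑ c, f (pick c) := by
    intro f
    symm
    refine Finset.sum_nbij pick (fun c _ => hpickH c) ?_ ?_ (fun c _ => rfl)
    · intro c _ c' _ e
      have := congrArg (fun h => resK276 v (ent276 v h)) e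
      simpa only [hpick] using this
    · intro h hh
      exact ⟨resK276 v (ent276 v h), Finset.mem_coe.mpr (Finset.mem_univ _), hpick_res h hh⟩
  -- the term `d = 0`
  have hzero : ∀ c, ψ (x * pick c * pick 0) = ψ x := by
    intro c
    rw [mul_assoc]
    apply hinv _ (isLocalAtFin_mul129 (hH.loc _ (hpickH c)) (hH.loc _ (hpickH 0)))
    refine inIwahori_mul_small276 v (hH.ent_mem (hpickH c)) (hH.ent_mem (hpickH 0))
      (hH.finComp_eq (hpickH c)) (hH.finComp_eq (hpickH 0)) ?_
    rw [← resK276_eq_zero_iff v (hH.ent_mem (hpickH 0)), hpick]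
  -- the terms `d ≠ 0`
  have hne : ∀ c d, d ≠ 0 → ψ (x * pick c * pick d) = ψ (x * pick (c + d⁻¹)) := by
    intro c d hd
    have e : x * pick c * pick d
        = x * pick (c + d⁻¹) * ((pick (c + d⁻¹))⁻¹ * (pick c * pick d)) := by group
    rw [e]
    apply hinv _ (isLocalAtFin_mul129 (isLocalAtFin_inv129 (hH.loc _ (hpickH _)))
      (isLocalAtFin_mul129 (hH.loc _ (hpickH c)) (hH.loc _ (hpickH d))))
    have ha := hH.ent_mem (hpickH c)
    have hb := hH.ent_mem (hpickH d)
    have hc := hH.ent_mem (hpickH (c + d⁻¹))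
    refine inIwahori_shift276 v ha hb hc (hH.finComp_eq (hpickH c)) (hH.finComp_eq (hpickH d))
      (hH.finComp_eq (hpickH (c + d⁻¹))) ?_
    have h1 : (1 : v.adicCompletion K) ∈ v.adicCompletionIntegers K :=
      (v.adicCompletionIntegers K).one_mem
    have hab := (v.adicCompletionIntegers K).mul_mem _ _ ha hb
    have hcb := (v.adicCompletionIntegers K).mul_mem _ _ hc hb
    have hab1 := (v.adicCompletionIntegers K).add_mem _ _ hab h1
    rw [← resK276_eq_zero_iff v ((v.adicCompletionIntegers K).sub_mem hab1 hcb),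
      resK276_sub v hab1 hcb, resK276_add v hab h1, resK276_mul v ha hb, resK276_mul v hc hb,
      resK276_one, hpick, hpick, hpick]
    field_simp
    ring
  have hshift : ∀ d, d ≠ 0 → ∑ c, ψ (x * pick c * pick d) = ∑ c, ψ (x * pick c) := by
    intro d hd
    rw [Finset.sum_congr rfl (fun c _ => hne c d hd)]
    exact Equiv.sum_comp (Equiv.addRight d⁻¹) (fun c => ψ (x * pick c))
  rw [hsum (fun h => ∑ h' ∈ H, ψ (x * h * h'))]
  simp only [hsum (fun h' => ψ (x * _ * h'))]
  rw [hsum (fun h => ψ (x * h)), Finset.sum_comm,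
    ← Finset.add_sum_erase Finset.univ _ (Finset.mem_univ (0 : IsLocalRing.ResidueField
      (v.adicCompletionIntegers K)))]
  rw [Finset.sum_congr rfl (fun c _ => hzero c), Finset.sum_const, Finset.card_univ, hq,
    Finset.sum_congr rfl (fun d hd => hshift d (Finset.ne_of_mem_erase hd)), Finset.sum_const,
    Finset.card_erase_of_mem (Finset.mem_univ _), Finset.card_univ, hq, nsmul_eq_mul,
    nsmul_eq_mul, Nat.cast_sub (Nat.one_le_iff_ne_zero.mpr (by
      rw [← hq]; exact Fintype.card_ne_zero)), Nat.cast_one]
  ring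

/-! ## Appendix: the equation lemmas of the definitions are realised HERE -/

theorem eqns_realisedRes276 : True := by
  have _a1 := @resK276.eq_1
  have _a2 := @resK276.eq_def
  have _a3 := @resK276.eq_unfold
  have _b1 := @ent276.eq_1
  have _b2 := @ent276.eq_def
  have _b3 := @ent276.eq_unfold
  trivial

end Fermat.Agent.LT.T7.H276

end
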