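import Fermat.Agent.LT.T7.H561.OpsSpec
import Fermat.Agent.LT.T7.H276.IwRes

/-!
# Row LT, tower T7, leaf T7.L2.2.B4.3 `OpsRelC561` (helper276, OFF-MAIN)

    opsRelC276 (K K') : H561.OpsRelC561 K K'     -- VERBATIM, UNCONDITIONAL

`S_j² = (q - 1) S_j + q` and `ρ_j² S_j = S_j ρ_j²` on the invariant cusp functions `W`, for ANY
explicit system along the orbit.  The quadratic relation is `quad_rel276` (`IwRes.lean`) at the
place `o j`, which is one of `o 0, …, o (ℓ - 1)` (`orbit_mem276`, asset `orbit_period415` of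
helper415) and has the norm of `o 0` (`absNorm_orbit276`); `ω_j²` is a local element with scalar
component, hence central (`central_of_scalar276`).
-/

set_option autoImplicit false

open IsDedekindDomain NumberField IsDedekindDomain.HeightOneSpectrum
open Fermat.Agent.LT.H556.A0 Fermat.Agent.LT.H129

noncomputable section

namespace Fermat.Agent.LT.T7.H276

variable {K K' : Type} [Field K] [NumberField K] [Field K'] [NumberField K'] [Algebra K K']

omit [Algebra K K'] in
theorem isBad_one276 (Dt : L2Data K K') : Dt.IsBad 1 := by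
  refine ⟨fun w => ?_, fun v _ => ?_⟩
  · rw [trivAtInf_iff129, map_one]
  · rw [trivAtFin_iff129, map_one]

theorem cyc_of_setup276 {ℓ : ℕ} {Φ : AutomorphicForm.HeckeEigensystem K' ℂ} {Dt : L2Data K K'}
    (hs : H561.IsSetup561 ℓ Φ Dt) : T5.IsCyclicOfDegree Dt.s ℓ Dt.k := by
  have h := (hs.data.comp 1 (isBad_one276 Dt)).cyc
  have hd := hs.data.deg
  rw [← hd]
  exact h

/-- The functions of `W` are invariant under the local Iwahori elements at every place of the
orbit. -/
theorem wfn_inv_local276 {ℓ : ℕ} {Φ : AutomorphicForm.HeckeEigensystem K' ℂ}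
    {Dt : L2Data K K'} (hs : H561.IsSetup561 ℓ Φ Dt) {ψ : G K' → ℂ}
    (hψ : IsWFn Dt.𝔑₀ Dt.R'.r ℓ Dt.o ψ) (j : ℕ) (u : G K') (hu : IsLocalAtFin (Dt.o j) u)
    (hI : T5.InIwahori (Dt.o j) u) (x : G K') : ψ (x * u) = ψ x := by
  obtain ⟨j₀, hj₀, e⟩ := orbit_mem276 Dt.s ℓ Dt.k (cyc_of_setup276 hs) Dt.o hs.data.orbit_rel j
  rw [e] at hu hI
  exact iwInv_local276 hψ.iw hj₀ hu hI x

variable (K K')

/-- **LEAF T7.L2.2.B4.3 = OPS-REL, VERBATIM.** -/
theorem opsRelC276 : H561.OpsRelC561 K K' := by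
  intro ℓ Φ Dt hs Hs ω hsys j ψ hψ x
  have hH : IsSys276 (Dt.o j) (Hs j) :=
    ⟨hsys.Hs_card j, hsys.Hs_local j, hsys.Hs_comp j, hsys.Hs_inj j⟩
  constructor
  · have h := quad_rel276 hH (wfn_inv_local276 hs hψ j) x
    rw [absNorm_orbit276 Dt.s Dt.o hs.data.orbit_rel j] at h
    exact h
  · obtain ⟨c, -, hω⟩ := hsys.ω_comp j
    have hz : finComp (Dt.o j) (ω j * ω j) = Matrix.diagonal (fun _ => c) := by
      rw [finComp_mul276, hω, omega_sq276]
    have hcen := central_of_scalar276 (Dt.o j)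
      (isLocalAtFin_mul129 (hsys.ω_local j) (hsys.ω_local j)) hz
    show ∑ h ∈ Hs j, ψ (x * ω j * ω j * h) = ∑ h ∈ Hs j, ψ (x * h * ω j * ω j)
    refine Finset.sum_congr rfl (fun h _ => ?_)
    have e : x * ω j * ω j * h = x * h * ω j * ω j := by
      rw [mul_assoc x (ω j) (ω j), mul_assoc x (ω j * ω j) h, hcen h, ← mul_assoc, ← mul_assoc]
    rw [e]

end Fermat.Agent.LT.T7.H276

end
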