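import Fermat.Agent.LT.T7.H276.OpsLink
import Fermat.Agent.LT.T5.H415.AutT5

/-!
# Row LT, tower T7, node T7.L2.2.B4 `OpsC561` (helper276, OFF-MAIN): the Iwahori algebra at one
# place and the orbit

* `inIwahori_of_mats276` : Iwahori membership from the matrix and its inverse;
* `inIwahori_mul_small276` : `!![a,1;1,0] !![b,1;1,0] ∈ I` if `|b| < 1`;
* `inIwahori_shift276` : `!![c,1;1,0]⁻¹ !![a,1;1,0] !![b,1;1,0] ∈ I` if `|ab + 1 - cb| < 1`;
* `iwInv_local276` : an `IsIwInv` function is invariant under the local Iwahori elements at the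
  places of the orbit;
* `orbit_mem276`, `orbit_add_period276`, `absNorm_orbit276` : the orbit is periodic and the
  norm is constant along the orbit;
* `central_of_scalar276` : a local element with scalar component is central.
-/

set_option autoImplicit false

open IsDedekindDomain NumberField IsDedekindDomain.HeightOneSpectrum
open Fermat.Agent.LT.H556.A0 Fermat.Agent.LT.H129

noncomputable section

namespace Fermat.Agent.LT.T7.H276

section Generic

variable {F : Type*} [Field F]

theorem coe_inv_of_mul_eq_one276 (g : GL (Fin 2) F) {M N : Matrix (Fin 2) (Fin 2) F}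
    (hg : (g : Matrix (Fin 2) (Fin 2) F) = M) (hMN : M * N = 1) :
    ((g⁻¹ : GL (Fin 2) F) : Matrix (Fin 2) (Fin 2) F) = N := by
  rw [Matrix.coe_units_inv, hg]
  exact Matrix.inv_eq_right_inv hMN

theorem iw_prod_mat276 (a b : F) :
    (!![a, 1; 1, 0] : Matrix (Fin 2) (Fin 2) F) * !![b, 1; 1, 0] = !![a * b + 1, a; b, 1] := by
  ext i j
  fin_cases i <;> fin_cases j <;> simp [Matrix.mul_apply, Fin.sum_univ_two]

theorem iw_prod_inv276 (a b : F) :
    (!![a * b + 1, a; b, 1] : Matrix (Fin 2) (Fin 2) F) * !![1, -a; -b, a * b + 1] = 1 := by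
  ext i j
  fin_cases i <;> fin_cases j <;> simp [Matrix.mul_apply, Fin.sum_univ_two] <;> ring

theorem iw_rep_inv276 (c : F) :
    (!![c, 1; 1, 0] : Matrix (Fin 2) (Fin 2) F) * !![0, 1; 1, -c] = 1 := by
  ext i j
  fin_cases i <;> fin_cases j <;> simp [Matrix.mul_apply, Fin.sum_univ_two]

theorem iw_shift_mat276 (a b c : F) :
    (!![0, 1; 1, -c] : Matrix (Fin 2) (Fin 2) F) * !![a * b + 1, a; b, 1]
      = !![b, 1; a * b + 1 - c * b, a - c] := by
  ext i j
  fin_cases i <;> fin_cases j <;> simp [Matrix.mul_apply, Fin.sum_univ_two] <;> ring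

theorem iw_shift_inv276 (a b c : F) :
    (!![b, 1; a * b + 1 - c * b, a - c] : Matrix (Fin 2) (Fin 2) F)
      * !![c - a, 1; a * b + 1 - c * b, -b] = 1 := by
  ext i j
  fin_cases i <;> fin_cases j <;> simp [Matrix.mul_apply, Fin.sum_univ_two] <;> ring

end Generic

variable {K : Type} [Field K] [NumberField K] (v : HeightOneSpectrum (𝓞 K))

/-- The component of the inverse. -/
theorem finComp_inv276 (g : G K) {M N : Matrix (Fin 2) (Fin 2) (v.adicCompletion K)}
    (hg : finComp v g = M) (hMN : M * N = 1) : finComp v g⁻¹ = N := by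
  rw [← coe_finCompHom129, map_inv]
  exact coe_inv_of_mul_eq_one276 _ (by rw [coe_finCompHom129, hg]) hMN

/-- Iwahori membership from the matrix and its inverse. -/
theorem inIwahori_of_mats276 {g : G K} {M N : Matrix (Fin 2) (Fin 2) (v.adicCompletion K)}
    (hg : finComp v g = M) (hMN : M * N = 1)
    (hM : ∀ i j, M i j ∈ v.adicCompletionIntegers K)
    (hN : ∀ i j, N i j ∈ v.adicCompletionIntegers K)
    (h10 : Valued.v (M 1 0) < 1) : T5.InIwahori v g := by
  refine ⟨fun i j => ?_, fun i j => ?_, ?_⟩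
  · rw [hg]; exact hM i j
  · rw [finComp_inv276 v g hg hMN]; exact hN i j
  · rw [hg]; exact h10

/-- An element which is trivial at `v` is in the Iwahori subgroup at `v`. -/
theorem inIwahori_of_triv276 {u : G K} (hu : TrivAtFin v u) : T5.InIwahori v u := by
  have h1 : (1 : v.adicCompletion K) ∈ v.adicCompletionIntegers K :=
    (v.adicCompletionIntegers K).one_mem
  have h0 : (0 : v.adicCompletion K) ∈ v.adicCompletionIntegers K :=
    (v.adicCompletionIntegers K).zero_mem
  have hint : ∀ i j : Fin 2,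
      (1 : Matrix (Fin 2) (Fin 2) (v.adicCompletion K)) i j ∈ v.adicCompletionIntegers K := by
    intro i j
    by_cases hij : i = j
    · subst hij; simp
    · simp [hij]
  refine inIwahori_of_mats276 v (M := 1) (N := 1) hu (one_mul 1) hint hint ?_
  simp

/-- `!![a,1;1,0] !![b,1;1,0] ∈ I` if `|b| < 1`. -/
theorem inIwahori_mul_small276 {h h' : G K} {a b : v.adicCompletion K}
    (ha : a ∈ v.adicCompletionIntegers K) (hb : b ∈ v.adicCompletionIntegers K)
    (hh : finComp v h = !![a, 1; 1, 0]) (hh' : finComp v h' = !![b, 1; 1, 0])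
    (hsmall : Valued.v b < 1) : T5.InIwahori v (h * h') := by
  have h1 : (1 : v.adicCompletion K) ∈ v.adicCompletionIntegers K :=
    (v.adicCompletionIntegers K).one_mem
  have hab : a * b + 1 ∈ v.adicCompletionIntegers K :=
    (v.adicCompletionIntegers K).add_mem _ _ ((v.adicCompletionIntegers K).mul_mem _ _ ha hb) h1
  have hna : -a ∈ v.adicCompletionIntegers K := (v.adicCompletionIntegers K).neg_mem _ ha
  have hnb : -b ∈ v.adicCompletionIntegers K := (v.adicCompletionIntegers K).neg_mem _ hb
  refine inIwahori_of_mats276 v (M := !![a * b + 1, a; b, 1]) (N := !![1, -a; -b, a * b + 1])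
    ?_ (iw_prod_inv276 a b) ?_ ?_ ?_
  · rw [finComp_mul276, hh, hh', iw_prod_mat276]
  · intro i j
    fin_cases i <;> fin_cases j <;> simp <;> assumption
  · intro i j
    fin_cases i <;> fin_cases j <;> simp <;> assumption
  · simpa using hsmall

/-- `!![c,1;1,0]⁻¹ !![a,1;1,0] !![b,1;1,0] ∈ I` if `|ab + 1 - cb| < 1`. -/
theorem inIwahori_shift276 {h h' h'' : G K} {a b c : v.adicCompletion K}
    (ha : a ∈ v.adicCompletionIntegers K) (hb : b ∈ v.adicCompletionIntegers K)
    (hc : c ∈ v.adicCompletionIntegers K)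
    (hh : finComp v h = !![a, 1; 1, 0]) (hh' : finComp v h' = !![b, 1; 1, 0])
    (hh'' : finComp v h'' = !![c, 1; 1, 0])
    (hsmall : Valued.v (a * b + 1 - c * b) < 1) : T5.InIwahori v (h''⁻¹ * (h * h')) := by
  have h1 : (1 : v.adicCompletion K) ∈ v.adicCompletionIntegers K :=
    (v.adicCompletionIntegers K).one_mem
  have hx : a * b + 1 - c * b ∈ v.adicCompletionIntegers K :=
    (v.adicCompletionIntegers K).sub_mem
      ((v.adicCompletionIntegers K).add_mem _ _ ((v.adicCompletionIntegers K).mul_mem _ _ ha hb)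
        h1) ((v.adicCompletionIntegers K).mul_mem _ _ hc hb)
  have hac : a - c ∈ v.adicCompletionIntegers K := (v.adicCompletionIntegers K).sub_mem ha hc
  have hca : c - a ∈ v.adicCompletionIntegers K := (v.adicCompletionIntegers K).sub_mem hc ha
  have hnb : -b ∈ v.adicCompletionIntegers K := (v.adicCompletionIntegers K).neg_mem _ hb
  refine inIwahori_of_mats276 v (M := !![b, 1; a * b + 1 - c * b, a - c])
    (N := !![c - a, 1; a * b + 1 - c * b, -b]) ?_ (iw_shift_inv276 a b c) ?_ ?_ ?_
  · rw [finComp_mul276, finComp_inv276 v h'' hh'' (iw_rep_inv276 c), finComp_mul276, hh, hh',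
      iw_prod_mat276, iw_shift_mat276]
  · intro i j
    fin_cases i <;> fin_cases j <;> simp <;> assumption
  · intro i j
    fin_cases i <;> fin_cases j <;> simp <;> assumption
  · simpa using hsmall

/-- An `IsIwInv` function is invariant under the local Iwahori elements at the places of the
orbit. -/
theorem iwInv_local276 {l : ℕ} {o : ℕ → HeightOneSpectrum (𝓞 K)} {ψ : G K → ℂ}
    (hψ : IsIwInv l o ψ) {j : ℕ} (hj : j < l) {u : G K} (hloc : IsLocalAtFin (o j) u)
    (hI : T5.InIwahori (o j) u) (x : G K) : ψ (x * u) = ψ x := by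
  apply hψ u hloc.1
  · intro w hw
    exact hloc.2 w (hw j hj)
  · intro j' _
    by_cases h : o j' = o j
    · rw [h]; exact hI
    · exact inIwahori_of_triv276 _ (hloc.2 _ h)

/-! ## The orbit -/

theorem orbit_add_period276 (s : T5.AdelicAut K) (l : ℕ) (k : Subfield K)
    (hc : T5.IsCyclicOfDegree s l k) (o : ℕ → HeightOneSpectrum (𝓞 K))
    (ho : ∀ j : ℕ, T5.PlaceRel s (o j) (o (j + 1))) (j : ℕ) : o (j + l) = o j := by
  have := T5.H415.orbit_period415 s l k hc (fun i => o (j + i)) (fun i => ho (j + i))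
  simpa using this

theorem orbit_add_mul276 (s : T5.AdelicAut K) (l : ℕ) (k : Subfield K)
    (hc : T5.IsCyclicOfDegree s l k) (o : ℕ → HeightOneSpectrum (𝓞 K))
    (ho : ∀ j : ℕ, T5.PlaceRel s (o j) (o (j + 1))) (j n : ℕ) : o (j + l * n) = o j := by
  induction n with
  | zero => simp
  | succ n ih =>
    rw [Nat.mul_succ, ← Nat.add_assoc, orbit_add_period276 s l k hc o ho, ih]

/-- Every place of the orbit is one of `o 0, …, o (l - 1)`. -/
theorem orbit_mem276 (s : T5.AdelicAut K) (l : ℕ) (k : Subfield K)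
    (hc : T5.IsCyclicOfDegree s l k) (o : ℕ → HeightOneSpectrum (𝓞 K))
    (ho : ∀ j : ℕ, T5.PlaceRel s (o j) (o (j + 1))) (j : ℕ) : ∃ j₀ < l, o j = o j₀ := by
  refine ⟨j % l, Nat.mod_lt _ hc.pos, ?_⟩
  have := orbit_add_mul276 s l k hc o ho (j % l) (j / l)
  rw [Nat.mod_add_div] at this
  exact this

theorem absNorm_map_equiv276 (e : 𝓞 K ≃+* 𝓞 K)
    (I : Ideal (𝓞 K)) : Ideal.absNorm (Ideal.map e I) = Ideal.absNorm I := by
  rw [Ideal.absNorm_apply, Ideal.absNorm_apply, Submodule.cardQuot_apply,
    Submodule.cardQuot_apply]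
  exact (Nat.card_congr (Ideal.quotientEquiv I (Ideal.map e I) e rfl).toEquiv).symm

/-- The norm is constant along the orbit. -/
theorem absNorm_orbit276 (s : T5.AdelicAut K) (o : ℕ → HeightOneSpectrum (𝓞 K))
    (ho : ∀ j : ℕ, T5.PlaceRel s (o j) (o (j + 1))) (j : ℕ) :
    Ideal.absNorm (o j).asIdeal = Ideal.absNorm (o 0).asIdeal := by
  induction j with
  | zero => rfl
  | succ j ih =>
    have h := ho j
    unfold T5.PlaceRel at h
    rw [h, absNorm_map_equiv276, ih]

/-! ## Central elements -/

/-- A local element with scalar component is central. -/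
theorem central_of_scalar276 {z : G K} (hloc : IsLocalAtFin v z) {c : v.adicCompletion K}
    (hz : finComp v z = Matrix.diagonal (fun _ => c)) (g : G K) : z * g = g * z := by
  rw [isLocalAtFin_iff129] at hloc
  apply G_ext129
  · intro w
    rw [map_mul, map_mul, hloc.1 w, one_mul, mul_one]
  · intro v'
    by_cases h : v' = v
    · subst h
      apply Units.ext
      rw [map_mul, map_mul, Matrix.GeneralLinearGroup.coe_mul, Matrix.GeneralLinearGroup.coe_mul,
        coe_finCompHom129, coe_finCompHom129, hz]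
      ext i j
      rw [Matrix.diagonal_mul, Matrix.mul_diagonal, mul_comm]
    · rw [map_mul, map_mul, hloc.2 v' h, one_mul, mul_one]

end Fermat.Agent.LT.T7.H276

end
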