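import Fermat.Agent.LT.T7.H561.OpsSpec
import Fermat.Agent.LT.T7.H276.IwCore

/-!
# Row LT, tower T7, leaf T7.L2.2.B4.8 `OpsLinkC561` (helper276, OFF-MAIN)

    opsLinkC276 (K K') : H561.OpsLinkC561 K K'     -- VERBATIM, UNCONDITIONAL

For ANY explicit system `(Hs, ω)` along the orbit: `{h ω 0 | h ∈ Hs 0}` is a full system of
representatives of `I t I / I` at `o 0` and `ω 0 ²` is a scalar uniformiser at `o 0`.
`!![a,1;1,0] !![0,1;ϖ,0] = !![ϖ,a;0,1] = !![1,a;0,1] !![ϖ,0;0,1]`,
`(h ω)⁻¹ (h' ω) = !![1,(a'-a)/ϖ;0,1]` is not integral (`|a' - a| = 1`), `ω² = ϖ`.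
The hypotheses on the data are not used.
-/

set_option autoImplicit false

open IsDedekindDomain NumberField IsDedekindDomain.HeightOneSpectrum
open Fermat.Agent.LT.H556.A0 Fermat.Agent.LT.H129

noncomputable section

namespace Fermat.Agent.LT.T7.H276

variable {K : Type} [Field K] [NumberField K] (v : HeightOneSpectrum (𝓞 K))

theorem finComp_one276 : finComp v (1 : G K) = 1 := by
  rw [← coe_finCompHom129, map_one]; rfl

theorem inIwahori_one276 : T5.InIwahori v (1 : G K) := by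
  have h1 : (1 : v.adicCompletion K) ∈ v.adicCompletionIntegers K :=
    (v.adicCompletionIntegers K).one_mem
  have h0 : (0 : v.adicCompletion K) ∈ v.adicCompletionIntegers K :=
    (v.adicCompletionIntegers K).zero_mem
  have hint : IsIntegralAt v (1 : G K) := by
    intro i j
    rw [finComp_one276]
    by_cases hij : i = j
    · subst hij; simp
    · simp [hij]
  refine ⟨hint, by rw [inv_one]; exact hint, ?_⟩
  rw [finComp_one276]
  simp

/-- The upper unipotent element `!![1,a;0,1]`, `a` integral, is in the Iwahori subgroup. -/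
theorem inIwahori_upper276 {a : v.adicCompletion K} (ha : a ∈ v.adicCompletionIntegers K) :
    T5.InIwahori v (locFin129 v (mkGL129 1 a 0 1 (by simp))) := by
  have h1 : (1 : v.adicCompletion K) ∈ v.adicCompletionIntegers K :=
    (v.adicCompletionIntegers K).one_mem
  have h0 : (0 : v.adicCompletion K) ∈ v.adicCompletionIntegers K :=
    (v.adicCompletionIntegers K).zero_mem
  have hI : IsInt129 (v.adicCompletionIntegers K) (mkGL129 1 a 0 1 (by simp)) :=
    isInt129_mkGL _ h1 ha h0 h1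
  have hinv : (mkGL129 1 a 0 1 (by simp) : GL (Fin 2) (v.adicCompletion K))⁻¹
      = mkGL129 1 (-a) 0 1 (by simp) := by
    rw [inv_eq_iff_eq_inv, eq_comm, inv_eq_iff_mul_eq_one]
    apply Units.ext
    rw [Matrix.GeneralLinearGroup.coe_mul, coe_mkGL129, coe_mkGL129]
    ext i j
    fin_cases i <;> fin_cases j <;> simp [Matrix.mul_apply, Fin.sum_univ_two]
  refine ⟨?_, ?_, ?_⟩
  · rw [← isInt129_finCompHom_iff, finCompHom129_locFin129]
    exact hI
  · rw [← isInt129_finCompHom_iff, map_inv, finCompHom129_locFin129, hinv]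
    exact isInt129_mkGL _ h1 ((v.adicCompletionIntegers K).neg_mem _ ha) h0 h1
  · rw [finComp_locFin129, coe_mkGL129]
    simp

/-- `h ω` lies in `I diag(ϖ, 1) I`. -/
theorem inIwahoriCoset_mul276 {h ω : G K} {a c : v.adicCompletion K}
    (ha : a ∈ v.adicCompletionIntegers K) (hc : Valued.v c = WithZero.exp (-1 : ℤ))
    (hh : finComp v h = !![a, 1; 1, 0]) (hω : finComp v ω = !![0, 1; c, 0]) :
    T5.InIwahoriCoset v 1 (h * ω) := by
  have hc0 : c ≠ 0 := unif_ne_zero129 v hc
  refine ⟨locFin129 v (mkGL129 1 a 0 1 (by simp)),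
    1, locFin129 v (mkGL129 c 0 0 1 (by simpa using hc0)), c,
    inIwahori_upper276 v ha, inIwahori_one276 v, by simpa using hc, ?_, ?_⟩
  · rw [finComp_locFin129, coe_mkGL129]
  · rw [mul_one, finComp_mul276, finComp_mul276, hh, hω, finComp_locFin129,
      finComp_locFin129, coe_mkGL129, coe_mkGL129, iw_mul_omega276, iw_split276]

/-- `(h ω)⁻¹ (h' ω)` is not in the Iwahori subgroup if `h⁻¹ h'` is not. -/
theorem not_inIwahori_mul276 {h h' ω : G K} {a a' c : v.adicCompletion K}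
    (ha : a ∈ v.adicCompletionIntegers K) (ha' : a' ∈ v.adicCompletionIntegers K)
    (hc : Valued.v c = WithZero.exp (-1 : ℤ))
    (hh : finComp v h = !![a, 1; 1, 0]) (hh' : finComp v h' = !![a', 1; 1, 0])
    (hω : finComp v ω = !![0, 1; c, 0]) (hI : ¬ T5.InIwahori v (h⁻¹ * h')) :
    ¬ T5.InIwahori v ((h * ω)⁻¹ * (h' * ω)) := by
  have hval := val_of_not_inIwahori276 v ha ha' hh hh' hI
  intro hJ
  have h01 := hJ.1 0 1
  have e1 : ((finCompHom129 v (h * ω) : GL (Fin 2) (v.adicCompletion K)) :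
      Matrix (Fin 2) (Fin 2) (v.adicCompletion K)) = !![c, a; 0, 1] := by
    rw [coe_finCompHom129, finComp_mul276, hh, hω, iw_mul_omega276]
  have e2 : ((finCompHom129 v (h' * ω) : GL (Fin 2) (v.adicCompletion K)) :
      Matrix (Fin 2) (Fin 2) (v.adicCompletion K)) = !![c, a'; 0, 1] := by
    rw [coe_finCompHom129, finComp_mul276, hh', hω, iw_mul_omega276]
  rw [finComp_inv_mul276, iw_conj276 _ _ a a' c e1 e2, mem_adicCompletionIntegers, map_div₀,
    hc] at h01
  have h2 : Valued.v (a' - a) ≤ WithZero.exp (-1 : ℤ) := by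
    have hpos : (0 : WithZero (Multiplicative ℤ)) < WithZero.exp (-1 : ℤ) :=
      WithZero.exp_pos
    have := (div_le_iff₀ hpos).mp h01
    simpa using this
  have h3 : (1 : WithZero (Multiplicative ℤ)) ≤ WithZero.exp (-1 : ℤ) := le_trans hval h2
  rw [← WithZero.exp_zero, WithZero.exp_le_exp] at h3
  omega

variable (K)
variable (K' : Type) [Field K'] [NumberField K'] [Algebra K K']

/-- **LEAF T7.L2.2.B4.8 = OPS-LINK, VERBATIM.** -/
theorem opsLinkC276 : H561.OpsLinkC561 K K' := by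
  intro ℓ Φ Dt _ Hs ω hsys
  obtain ⟨c, hc, hω⟩ := hsys.ω_comp 0
  refine ⟨⟨?_, ?_, ?_⟩, ?_, c, hc, ?_⟩
  · rw [Finset.card_map]
    exact hsys.Hs_card 0
  · intro x hx
    obtain ⟨h, hh, rfl⟩ := Finset.mem_map.mp hx
    obtain ⟨a, ha, hha⟩ := hsys.Hs_comp 0 h hh
    exact ⟨isLocalAtFin_mul129 (hsys.Hs_local 0 h hh) (hsys.ω_local 0),
      inIwahoriCoset_mul276 (Dt.o 0) ha hc hha hω⟩
  · intro x hx x' hx' hne
    obtain ⟨h, hh, rfl⟩ := Finset.mem_map.mp hx
    obtain ⟨h', hh', rfl⟩ := Finset.mem_map.mp hx'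
    obtain ⟨a, ha, hha⟩ := hsys.Hs_comp 0 h hh
    obtain ⟨a', ha', hha'⟩ := hsys.Hs_comp 0 h' hh'
    have hne' : h ≠ h' := fun e => hne (by rw [e])
    exact not_inIwahori_mul276 (Dt.o 0) ha ha' hc hha hha' hω (hsys.Hs_inj 0 h hh h' hh' hne')
  · exact isLocalAtFin_mul129 (hsys.ω_local 0) (hsys.ω_local 0)
  · rw [finComp_mul276, hω, omega_sq276]

end Fermat.Agent.LT.T7.H276

end
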